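/-
Programme MW (S17), brick ABSH-1 (helper12), file 2: local degrees at the finite places.

For an extension `L / K` of number fields, a prime `w` of `𝓞 L` and the prime `under w` of `𝓞 K`
below it:
* `mk_algebraMap : FinitePlace.mk w (algebraMap K L x) = (FinitePlace.mk (under w) x) ^ localDeg w`
  with `localDeg w = e(w) * f(w)`;
* `sum_localDeg : ∑ w ∈ fibre L v, localDeg w = [L : K]`.
-/
import Mathlib

set_option autoImplicit false

namespace Fermat.Agent.MW.AbsHeight12.FinSum

open NumberField IsDedekindDomain IsDedekindDomain.HeightOneSpectrum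
open scoped NNReal

section ToNNReal

open WithZeroMulInt

/-- `toNNReal` with base `e ^ f`. -/
theorem toNNReal_pow_base {e : ℝ≥0} (he : e ≠ 0) {f : ℕ} (hf : f ≠ 0) (m : WithZero (Multiplicative ℤ)) :
    toNNReal (pow_ne_zero f he) m = (toNNReal he m) ^ f := by
  by_cases hm : m = 0
  · rw [toNNReal_pos_apply _ hm, toNNReal_pos_apply _ hm, zero_pow hf]
  · rw [toNNReal_neg_apply _ hm, toNNReal_neg_apply _ hm, ← zpow_natCast, ← zpow_natCast,
      ← zpow_mul, ← zpow_mul, mul_comm]

theorem toNNReal_congr {e e' : ℝ≥0} (h : e = e') (he : e ≠ 0) (he' : e' ≠ 0)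
    (m : WithZero (Multiplicative ℤ)) : toNNReal he m = toNNReal he' m := by
  subst h
  rfl

end ToNNReal

variable {K L : Type*} [Field K] [NumberField K] [Field L] [NumberField L] [Algebra K L]

/-- The prime of `𝓞 K` under a prime of `𝓞 L`. -/
noncomputable def under (w : HeightOneSpectrum (𝓞 L)) : HeightOneSpectrum (𝓞 K) where
  asIdeal := w.asIdeal.under (𝓞 K)
  isPrime := inferInstance
  ne_bot := fun h => w.ne_bot (Ideal.eq_bot_of_comap_eq_bot h)

instance (w : HeightOneSpectrum (𝓞 L)) : w.asIdeal.LiesOver (under (K := K) w).asIdeal := ⟨rfl⟩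

/-- The local degree `e * f` of a prime of `𝓞 L` over `K`. -/
noncomputable def localDeg (w : HeightOneSpectrum (𝓞 L)) : ℕ :=
  (under (K := K) w).asIdeal.ramificationIdx' w.asIdeal *
    (under (K := K) w).asIdeal.inertiaDeg' w.asIdeal

theorem absNorm_eq (w : HeightOneSpectrum (𝓞 L)) :
    Ideal.absNorm w.asIdeal = Ideal.absNorm (under (K := K) w).asIdeal ^
      ((under (K := K) w).asIdeal.inertiaDeg' w.asIdeal) :=
  Ideal.absNorm_eq_pow_inertiaDeg'_of_liesOver w.asIdeal (under (K := K) w).asIdeal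
    (under (K := K) w).isPrime (under (K := K) w).ne_bot

theorem inertiaDeg_ne_zero (w : HeightOneSpectrum (𝓞 L)) :
    (under (K := K) w).asIdeal.inertiaDeg' w.asIdeal ≠ 0 := by
  intro h
  have h1 := absNorm_eq (K := K) w
  rw [h, pow_zero] at h1
  exact (NumberField.HeightOneSpectrum.one_lt_absNorm w).ne' h1

theorem ramificationIdx_ne_zero (w : HeightOneSpectrum (𝓞 L)) :
    (under (K := K) w).asIdeal.ramificationIdx' w.asIdeal ≠ 0 :=
  Ideal.IsDedekindDomain.ramificationIdx'_ne_zero_of_liesOver w.asIdeal (under (K := K) w).ne_bot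

/-- **Local extension formula at a finite place.** -/
theorem mk_algebraMap (w : HeightOneSpectrum (𝓞 L)) (x : K) :
    FinitePlace.mk w (algebraMap K L x) =
      (FinitePlace.mk (under (K := K) w) x) ^ localDeg (K := K) w := by
  rw [FinitePlace.mk_apply, FinitePlace.mk_apply, FinitePlace.norm_embedding',
    FinitePlace.norm_embedding', ← valuation_liesOver L (under (K := K) w) w x, map_pow]
  have hN : (Ideal.absNorm w.asIdeal : ℝ≥0) =
      (Ideal.absNorm (under (K := K) w).asIdeal : ℝ≥0) ^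
        ((under (K := K) w).asIdeal.inertiaDeg' w.asIdeal) := by
    rw [absNorm_eq (K := K) w, Nat.cast_pow]
  rw [toNNReal_congr hN (NumberField.HeightOneSpectrum.absNorm_ne_zero w) (pow_ne_zero _ (NumberField.HeightOneSpectrum.absNorm_ne_zero (under (K := K) w))),
    toNNReal_pow_base _ (inertiaDeg_ne_zero w), localDeg, ← pow_mul, mul_comm]
  push_cast
  rfl

omit [NumberField L] in
theorem asIdeal_injOn (s : Set (Ideal (𝓞 L))) :
    Set.InjOn (fun w : HeightOneSpectrum (𝓞 L) => w.asIdeal) ((fun w => w.asIdeal) ⁻¹' s) :=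
  fun _ _ _ _ h => HeightOneSpectrum.ext h

variable (L) in
/-- The finite set of primes of `𝓞 L` over a prime of `𝓞 K`. -/
noncomputable def fibre (v : HeightOneSpectrum (𝓞 K)) : Finset (HeightOneSpectrum (𝓞 L)) :=
  (IsDedekindDomain.primesOverFinset v.asIdeal (𝓞 L)).preimage (fun w => w.asIdeal)
    (asIdeal_injOn _)

theorem mem_fibre {v : HeightOneSpectrum (𝓞 K)} {w : HeightOneSpectrum (𝓞 L)} :
    w ∈ fibre L v ↔ under (K := K) w = v := by
  rw [fibre, Finset.mem_preimage, IsDedekindDomain.mem_primesOverFinset_iff v.ne_bot (𝓞 L)]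
  constructor
  · rintro ⟨-, h⟩
    exact HeightOneSpectrum.ext h.over.symm
  · rintro rfl
    exact ⟨w.isPrime, ⟨rfl⟩⟩

/-- **Sum of the local degrees at the finite places.** -/
theorem sum_localDeg (v : HeightOneSpectrum (𝓞 K)) :
    ∑ w ∈ fibre L v, localDeg (K := K) w = Module.finrank K L := by
  have h := Ideal.sum_ramification_inertia (𝓞 L) K L (p := v.asIdeal) v.ne_bot
  rw [← h]
  have h2 := Finset.sum_preimage (fun w : HeightOneSpectrum (𝓞 L) => w.asIdeal)
    (IsDedekindDomain.primesOverFinset v.asIdeal (𝓞 L)) (asIdeal_injOn _)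
    (fun P => v.asIdeal.ramificationIdx' P * v.asIdeal.inertiaDeg' P) ?_
  · rw [← h2]
    refine Finset.sum_congr rfl fun w hw => ?_
    have hw' : under (K := K) w = v := mem_fibre.1 hw
    subst hw'
    rfl
  · intro P hP hPr
    exfalso
    apply hPr
    rw [IsDedekindDomain.mem_primesOverFinset_iff v.ne_bot (𝓞 L)] at hP
    have hPne : P ≠ ⊥ := by
      have := hP.2
      exact Ideal.ne_bot_of_liesOver_of_ne_bot v.ne_bot P
    exact ⟨⟨P, hP.1, hPne⟩, rfl⟩

end Fermat.Agent.MW.AbsHeight12.FinSum
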