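/-
Programme MW (S17), brick ABSH-1 (helper12), file 3: the extension formula for heights.

For an extension `L / K` of number fields (any `[Algebra K L]`, so ring isomorphisms are included)
and a finite tuple `x : ι → K`:

  `mulHeight_algebraMap : Height.mulHeight (fun i => algebraMap K L (x i)) =
      Height.mulHeight x ^ Module.finrank K L`
  `logHeight_algebraMap : Height.logHeight (fun i => algebraMap K L (x i)) =
      Module.finrank K L * Height.logHeight x`.
-/
import Mathlib
import Fermat.Agent.MW.AbsHeight12.InfSum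
import Fermat.Agent.MW.AbsHeight12.FinSum

set_option autoImplicit false

namespace Fermat.Agent.MW.AbsHeight12.Ext

open NumberField IsDedekindDomain IsDedekindDomain.HeightOneSpectrum
open Fermat.Agent.MW.AbsHeight12
open scoped NNReal

/-- Powers commute with finite suprema of nonnegative reals. -/
theorem iSup_pow_of_nonneg {ι : Type*} [Finite ι] [Nonempty ι] (f : ι → ℝ) (hf : ∀ i, 0 ≤ f i)
    (n : ℕ) : (⨆ i, f i) ^ n = ⨆ i, f i ^ n := by
  have h : ∀ i, f i = ((f i).toNNReal : ℝ) := fun i => (Real.coe_toNNReal _ (hf i)).symm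
  have h1 : (⨆ i, f i) = ((⨆ i, (f i).toNNReal : ℝ≥0) : ℝ) := by
    rw [NNReal.coe_iSup]
    exact iSup_congr h
  have h2 : (⨆ i, f i ^ n) = ((⨆ i, (f i).toNNReal ^ n : ℝ≥0) : ℝ) := by
    rw [NNReal.coe_iSup]
    refine iSup_congr fun i => ?_
    rw [NNReal.coe_pow, ← h i]
  rw [h1, h2, ← NNReal.coe_pow]
  congr 1
  exact (pow_left_mono n).map_ciSup_of_continuousAt (continuous_pow n).continuousAt
      (Finite.bddAbove_range _)

variable {K L : Type*} [Field K] [NumberField K] [Field L] [NumberField L] [Algebra K L]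
variable {ι : Type*}

open scoped Classical in
/-- The archimedean part of the extension formula. -/
theorem prod_infinitePlace_algebraMap (x : ι → K) :
    ∏ w : InfinitePlace L, (⨆ i, w (algebraMap K L (x i))) ^ w.mult =
      (∏ v : InfinitePlace K, (⨆ i, v (x i)) ^ v.mult) ^ Module.finrank K L := by
  rw [← Finset.prod_fiberwise (Finset.univ : Finset (InfinitePlace L))
    (fun w => w.comap (algebraMap K L))
    (fun w => (⨆ i, w (algebraMap K L (x i))) ^ w.mult), ← Finset.prod_pow]
  refine Finset.prod_congr rfl fun v _ => ?_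
  have h : ∀ w ∈ Finset.univ.filter (fun w : InfinitePlace L => w.comap (algebraMap K L) = v),
      (⨆ i, w (algebraMap K L (x i))) ^ w.mult = (⨆ i, v (x i)) ^ w.mult := by
    intro w hw
    simp only [Finset.mem_filter, Finset.mem_univ, true_and] at hw
    subst hw
    rfl
  rw [Finset.prod_congr rfl h, Finset.prod_pow_eq_pow_sum, InfSum.sum_mult_comap_eq, mul_comm,
    pow_mul]

variable [Finite ι]

/-- The local sup at a finite place, indexed by `HeightOneSpectrum`. -/
noncomputable def G (x : ι → K) (v : HeightOneSpectrum (𝓞 K)) : ℝ := ⨆ i, FinitePlace.mk v (x i)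

omit [Finite ι] in
theorem finprod_finitePlace_eq (x : ι → K) :
    ∏ᶠ v : FinitePlace K, ⨆ i, v (x i) = ∏ᶠ v : HeightOneSpectrum (𝓞 K), G x v := by
  rw [← finprod_comp_equiv (FinitePlace.equivHeightOneSpectrum (K := K)).symm]
  rfl

theorem G_eq_one_of_forall {x : ι → K} (hx : x ≠ 0) (v : HeightOneSpectrum (𝓞 K))
    (h : ∀ i, x i ≠ 0 → FinitePlace.mk v (x i) = 1) : G x v = 1 := by
  obtain ⟨i₀, hi₀⟩ : ∃ i, x i ≠ 0 := Function.ne_iff.mp hx
  have : Nonempty ι := ⟨i₀⟩
  refine le_antisymm (ciSup_le fun i => ?_) ?_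
  · by_cases hi : x i = 0
    · rw [hi, map_zero]; exact zero_le_one
    · exact (h i hi).le
  · rw [← h i₀ hi₀]
    exact le_ciSup (f := fun i => (FinitePlace.mk v (x i) : ℝ)) (Finite.bddAbove_range _) i₀

theorem finite_mulSupport_G {x : ι → K} (hx : x ≠ 0) : (Function.mulSupport (G x)).Finite := by
  have h1 : ∀ i, x i ≠ 0 →
      (Function.mulSupport (fun v : HeightOneSpectrum (𝓞 K) => FinitePlace.mk v (x i))).Finite := by
    intro i hi
    have := FinitePlace.hasFiniteMulSupport hi
    have h2 := this.comp_of_injective (FinitePlace.equivHeightOneSpectrum (K := K)).symm.injective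
    exact h2
  have : Function.mulSupport (G x) ⊆ ⋃ i : {i // x i ≠ 0},
      Function.mulSupport (fun v : HeightOneSpectrum (𝓞 K) => FinitePlace.mk v (x i)) := by
    intro v hv
    by_contra hcon
    apply hv
    apply G_eq_one_of_forall hx
    intro i hi
    by_contra h3
    exact hcon (Set.mem_iUnion.2 ⟨⟨i, hi⟩, h3⟩)
  exact (Set.finite_iUnion fun i : {i // x i ≠ 0} => h1 i i.2).subset this

theorem G_algebraMap (x : ι → K) (w : HeightOneSpectrum (𝓞 L)) :
    G (fun i => algebraMap K L (x i)) w = G x (FinSum.under (K := K) w) ^ FinSum.localDeg (K := K) w := by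
  rcases isEmpty_or_nonempty ι with hι | hι
  · simp only [G, Real.iSup_of_isEmpty]
    rw [zero_pow]
    exact Nat.mul_ne_zero (FinSum.ramificationIdx_ne_zero w) (FinSum.inertiaDeg_ne_zero w)
  · rw [G, G, iSup_pow_of_nonneg _ (fun i => apply_nonneg _ _)]
    exact iSup_congr fun i => FinSum.mk_algebraMap w (x i)

/-- The non-archimedean part of the extension formula. -/
theorem finprod_finitePlace_algebraMap {x : ι → K} (hx : x ≠ 0) :
    ∏ᶠ w : FinitePlace L, ⨆ i, w (algebraMap K L (x i)) =
      (∏ᶠ v : FinitePlace K, ⨆ i, v (x i)) ^ Module.finrank K L := by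
  classical
  rw [finprod_finitePlace_eq, finprod_finitePlace_eq (K := K)]
  set S : Finset (HeightOneSpectrum (𝓞 K)) := (finite_mulSupport_G hx).toFinset with hS
  have hsub : Function.mulSupport (G (fun i => algebraMap K L (x i))) ⊆
      ((S.biUnion (FinSum.fibre L) : Finset (HeightOneSpectrum (𝓞 L))) : Set _) := by
    intro w hw
    rw [Finset.mem_coe, Finset.mem_biUnion]
    refine ⟨FinSum.under (K := K) w, ?_, FinSum.mem_fibre.2 rfl⟩
    rw [hS, Set.Finite.mem_toFinset, Function.mem_mulSupport]
    intro h1
    apply hw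
    rw [G_algebraMap, h1, one_pow]
  rw [finprod_eq_prod_of_mulSupport_subset _ hsub, Finset.prod_biUnion]
  · rw [finprod_eq_prod_of_mulSupport_subset (G x) (s := S) (by rw [hS]; simp), ← Finset.prod_pow]
    refine Finset.prod_congr rfl fun v _ => ?_
    have h : ∀ w ∈ FinSum.fibre L v, G (fun i => algebraMap K L (x i)) w =
        G x v ^ FinSum.localDeg (K := K) w := by
      intro w hw
      rw [G_algebraMap, FinSum.mem_fibre.1 hw]
    rw [Finset.prod_congr rfl h, Finset.prod_pow_eq_pow_sum, FinSum.sum_localDeg]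
  · intro v _ v' _ hvv'
    rw [Function.onFun, Finset.disjoint_left]
    intro w hw hw'
    exact hvv' ((FinSum.mem_fibre.1 hw).symm.trans (FinSum.mem_fibre.1 hw'))

/-- **Extension formula for the multiplicative height.** -/
theorem mulHeight_algebraMap (x : ι → K) :
    Height.mulHeight (fun i => algebraMap K L (x i)) =
      Height.mulHeight x ^ Module.finrank K L := by
  rcases eq_or_ne x 0 with rfl | hx
  · have h0 : (fun i => algebraMap K L ((0 : ι → K) i)) = 0 := by
      funext i
      simp
    rw [h0, Height.mulHeight_zero, Height.mulHeight_zero, one_pow]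
  · have hx' : (fun i => algebraMap K L (x i)) ≠ 0 := by
      obtain ⟨i, hi⟩ := Function.ne_iff.mp hx
      exact Function.ne_iff.mpr ⟨i, by simpa using hi⟩
    rw [NumberField.mulHeight_eq hx, NumberField.mulHeight_eq hx', mul_pow,
      prod_infinitePlace_algebraMap, finprod_finitePlace_algebraMap hx]

/-- **Extension formula for the logarithmic height.** -/
theorem logHeight_algebraMap (x : ι → K) :
    Height.logHeight (fun i => algebraMap K L (x i)) =
      Module.finrank K L * Height.logHeight x := by
  rw [Height.logHeight_eq_log_mulHeight, Height.logHeight_eq_log_mulHeight, mulHeight_algebraMap,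
    Real.log_pow]

end Fermat.Agent.MW.AbsHeight12.Ext
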