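/-
Programme MW (S17), brick ABSH-1 (helper12), file 4: the absolute height on finite tuples of
algebraic numbers.

`Ω` is any field of characteristic zero which is algebraic over `ℚ` (e.g. `AlgebraicClosure ℚ`);
`ι` is any finite type.

* `genField x : IntermediateField ℚ Ω` — the number field `ℚ(x i : i)`; `lift x : ι → genField x`.
* `absMulHeight x`, `absLogHeight x = Real.log (absMulHeight x)`.
* `absLogHeight_comp (f : K →+* Ω) (y : ι → K) :
    absLogHeight (fun i => f (y i)) = Height.logHeight y / Module.finrank ℚ K`
  for EVERY number field `K` (the characterisation; uses the extension formula `Ext`).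
* `absLogHeight_coe`, `absLogHeight_liftTo` — the same for number fields `E ≤ Ω`.
* invariances: `absLogHeight_map` (field homomorphisms, in particular Galois), `absLogHeight_smul`
  (projective invariance), `absLogHeight_comp_equiv`, `absLogHeight_comp_le` (sub-tuples),
  `absLogHeight_pow`, `absLogHeight_fun_mul_eq` (Segre), `absLogHeight_mul_le`.
-/
import Mathlib
import Fermat.Agent.MW.AbsHeight12.Ext

set_option autoImplicit false

namespace Fermat.Agent.MW.AbsHeight12

open IntermediateField

variable {Ω : Type*} [Field Ω] [CharZero Ω] [Algebra.IsAlgebraic ℚ Ω]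
variable {ι : Type*} [Finite ι]

/-- An intermediate field of `Ω / ℚ` generated by a finite set is a number field. -/
theorem finiteDimensional_adjoin_of_finite (S : Set Ω) [Finite S] :
    FiniteDimensional ℚ (adjoin ℚ S) :=
  finiteDimensional_adjoin fun a _ => Algebra.IsIntegral.isIntegral a

omit [Algebra.IsAlgebraic ℚ Ω] in
/-- A finite-dimensional intermediate field of `Ω / ℚ` is a number field. -/
theorem numberField_of_finiteDimensional (E : IntermediateField ℚ Ω) [FiniteDimensional ℚ E] :
    NumberField E := {}

/-- The number field generated by the entries of a finite tuple. -/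
def genField (x : ι → Ω) : IntermediateField ℚ Ω := adjoin ℚ (Set.range x)

instance genField_finiteDimensional (x : ι → Ω) : FiniteDimensional ℚ (genField x) :=
  finiteDimensional_adjoin_of_finite (Set.range x)

instance genField_numberField (x : ι → Ω) : NumberField (genField x) := {}

omit [Algebra.IsAlgebraic ℚ Ω] [Finite ι] in
theorem mem_genField (x : ι → Ω) (i : ι) : x i ∈ genField x :=
  subset_adjoin ℚ _ ⟨i, rfl⟩

/-- A tuple with entries in an intermediate field, as a tuple over this field. -/
def liftTo (E : IntermediateField ℚ Ω) (x : ι → Ω) (h : ∀ i, x i ∈ E) : ι → E :=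
  fun i => ⟨x i, h i⟩

omit [Finite ι] [Algebra.IsAlgebraic ℚ Ω] in
@[simp] theorem coe_liftTo (E : IntermediateField ℚ Ω) (x : ι → Ω) (h : ∀ i, x i ∈ E) (i : ι) :
    (liftTo E x h i : Ω) = x i := rfl

/-- The tuple `x` as a tuple over the number field it generates. -/
def lift (x : ι → Ω) : ι → genField x := liftTo (genField x) x (mem_genField x)

/-- **The absolute multiplicative height** of a finite tuple of algebraic numbers. -/
noncomputable def absMulHeight (x : ι → Ω) : ℝ :=
  Height.mulHeight (lift x) ^ ((Module.finrank ℚ (genField x) : ℝ)⁻¹)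

/-- **The absolute logarithmic height** of a finite tuple of algebraic numbers. -/
noncomputable def absLogHeight (x : ι → Ω) : ℝ := Real.log (absMulHeight x)

theorem absLogHeight_def (x : ι → Ω) :
    absLogHeight x = Height.logHeight (lift x) / Module.finrank ℚ (genField x) := by
  rw [absLogHeight, absMulHeight, Real.log_rpow (Height.mulHeight_pos _),
    Height.logHeight_eq_log_mulHeight, div_eq_inv_mul]

theorem absMulHeight_eq_exp (x : ι → Ω) : absMulHeight x = Real.exp (absLogHeight x) := by
  rw [absLogHeight, Real.exp_log]
  exact Real.rpow_pos_of_pos (Height.mulHeight_pos _) _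

theorem absMulHeight_pos (x : ι → Ω) : 0 < absMulHeight x :=
  Real.rpow_pos_of_pos (Height.mulHeight_pos _) _

theorem one_le_absMulHeight (x : ι → Ω) : 1 ≤ absMulHeight x :=
  Real.one_le_rpow (Height.one_le_mulHeight _) (by positivity)

theorem absLogHeight_nonneg (x : ι → Ω) : 0 ≤ absLogHeight x :=
  Real.log_nonneg (one_le_absMulHeight x)

section comp

variable {K : Type*} [Field K] [NumberField K]

/-- **Characterisation of the absolute height**: on the image of any number field `K` in `Ω`
it is the height of `K` divided by the degree. -/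
theorem absLogHeight_comp (f : K →+* Ω) (y : ι → K) :
    absLogHeight (fun i => f (y i)) = Height.logHeight y / Module.finrank ℚ K := by
  set x : ι → Ω := fun i => f (y i) with hx
  let f' : K →ₐ[ℚ] Ω := f.toRatAlgHom
  have hle : genField x ≤ f'.fieldRange := by
    rw [genField, adjoin_le_iff]
    rintro _ ⟨i, rfl⟩
    exact ⟨y i, rfl⟩
  let e : K ≃ₐ[ℚ] f'.fieldRange := AlgEquiv.ofInjectiveField f'
  let g : genField x →ₐ[ℚ] K := (e.symm : f'.fieldRange →ₐ[ℚ] K).comp (inclusion hle)
  have hg : ∀ a : genField x, f (g a) = a := by
    intro a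
    have h1 : (e (g a) : Ω) = f (g a) := rfl
    rw [← h1]
    change ((e (e.symm (inclusion hle a)) : f'.fieldRange) : Ω) = a
    rw [AlgEquiv.apply_symm_apply]
    rfl
  let _ : Algebra (genField x) K := g.toRingHom.toAlgebra
  have h2 : (fun i => algebraMap (genField x) K (lift x i)) = y := by
    funext i
    apply f.injective
    exact hg _
  have h3 := Ext.logHeight_algebraMap (K := genField x) (L := K) (lift x)
  rw [h2] at h3
  have h4 : Module.finrank ℚ (genField x) * Module.finrank (genField x) K = Module.finrank ℚ K :=
    Module.finrank_mul_finrank ℚ (genField x) K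
  have h5 : (0 : ℝ) < Module.finrank ℚ (genField x) := by
    exact_mod_cast Module.finrank_pos
  have h6 : (0 : ℝ) < Module.finrank (genField x) K := by
    have : 0 < Module.finrank ℚ K := Module.finrank_pos
    rw [← h4] at this
    exact_mod_cast Nat.pos_of_mul_pos_left this
  rw [absLogHeight_def, h3, ← h4, Nat.cast_mul]
  field_simp

theorem absMulHeight_comp (f : K →+* Ω) (y : ι → K) :
    absMulHeight (fun i => f (y i)) = Height.mulHeight y ^ ((Module.finrank ℚ K : ℝ)⁻¹) := by
  rw [absMulHeight_eq_exp, absLogHeight_comp, Height.logHeight_eq_log_mulHeight,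
    Real.rpow_def_of_pos (Height.mulHeight_pos _), div_eq_mul_inv]

end comp

section coe

/-- The absolute height of a tuple with entries in a number field `E ≤ Ω`. -/
theorem absLogHeight_coe (E : IntermediateField ℚ Ω) [NumberField E] (y : ι → E) :
    absLogHeight (fun i => (y i : Ω)) = Height.logHeight y / Module.finrank ℚ E :=
  absLogHeight_comp (algebraMap E Ω) y

/-- The absolute height computed in any number field `E ≤ Ω` containing the entries. -/
theorem absLogHeight_liftTo (E : IntermediateField ℚ Ω) [NumberField E] (x : ι → Ω)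
    (h : ∀ i, x i ∈ E) :
    absLogHeight x = Height.logHeight (liftTo E x h) / Module.finrank ℚ E :=
  absLogHeight_coe E (liftTo E x h)

omit [Algebra.IsAlgebraic ℚ Ω] in
theorem finrank_pos_real (E : IntermediateField ℚ Ω) [NumberField E] :
    (0 : ℝ) < Module.finrank ℚ E := by
  exact_mod_cast Module.finrank_pos

end coe

section invariance

@[simp] theorem absLogHeight_zero : absLogHeight (0 : ι → Ω) = 0 := by
  rw [absLogHeight_def]
  have : lift (0 : ι → Ω) = 0 := by
    funext i
    ext
    rfl
  rw [this, Height.logHeight_zero, zero_div]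

/-- Invariance under field homomorphisms (in particular under field automorphisms, i.e. the
Galois action). -/
theorem absLogHeight_map {Ω' : Type*} [Field Ω'] [CharZero Ω'] [Algebra.IsAlgebraic ℚ Ω']
    (g : Ω →+* Ω') (x : ι → Ω) : absLogHeight (fun i => g (x i)) = absLogHeight x := by
  rw [absLogHeight_def x]
  exact absLogHeight_comp (g.comp (algebraMap (genField x) Ω)) (lift x)

theorem absMulHeight_map {Ω' : Type*} [Field Ω'] [CharZero Ω'] [Algebra.IsAlgebraic ℚ Ω']
    (g : Ω →+* Ω') (x : ι → Ω) : absMulHeight (fun i => g (x i)) = absMulHeight x := by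
  rw [absMulHeight_eq_exp, absMulHeight_eq_exp, absLogHeight_map]

/-- Invariance under scaling: the absolute height is a function on projective space. -/
theorem absLogHeight_smul (x : ι → Ω) {c : Ω} (hc : c ≠ 0) :
    absLogHeight (c • x) = absLogHeight x := by
  let z : ι ⊕ Unit → Ω := Sum.elim x (fun _ => c)
  have hx : ∀ i, x i ∈ genField z := fun i => mem_genField z (Sum.inl i)
  have hcE : c ∈ genField z := mem_genField z (Sum.inr ())
  have h1 : ∀ i, (c • x) i ∈ genField z := fun i => (genField z).mul_mem hcE (hx i)
  rw [absLogHeight_liftTo (genField z) (c • x) h1, absLogHeight_liftTo (genField z) x hx]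
  congr 1
  have h2 : liftTo (genField z) (c • x) h1 =
      (⟨c, hcE⟩ : genField z) • liftTo (genField z) x hx := by
    funext i
    ext
    rfl
  rw [h2, Height.logHeight_smul_eq_logHeight]
  intro h
  exact hc (congrArg Subtype.val h)

theorem absMulHeight_smul (x : ι → Ω) {c : Ω} (hc : c ≠ 0) :
    absMulHeight (c • x) = absMulHeight x := by
  rw [absMulHeight_eq_exp, absMulHeight_eq_exp, absLogHeight_smul x hc]

variable {ι' : Type*} [Finite ι']

/-- Invariance under re-indexing. -/
theorem absLogHeight_comp_equiv (e : ι ≃ ι') (x : ι' → Ω) :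
    absLogHeight (x ∘ e) = absLogHeight x := by
  have h1 : ∀ i, (x ∘ e) i ∈ genField x := fun i => mem_genField x (e i)
  rw [absLogHeight_liftTo (genField x) (x ∘ e) h1, absLogHeight_def]
  congr 1
  exact Height.logHeight_comp_equiv e (lift x)

/-- Monotonicity under passing to a sub-tuple. -/
theorem absLogHeight_comp_le (f : ι → ι') (x : ι' → Ω) :
    absLogHeight (x ∘ f) ≤ absLogHeight x := by
  have h1 : ∀ i, (x ∘ f) i ∈ genField x := fun i => mem_genField x (f i)
  rw [absLogHeight_liftTo (genField x) (x ∘ f) h1, absLogHeight_def]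
  exact div_le_div_of_nonneg_right (Height.logHeight_comp_le f (lift x))
    (finrank_pos_real _).le

/-- Coordinate-wise powers. -/
theorem absLogHeight_pow (x : ι → Ω) (n : ℕ) :
    absLogHeight (x ^ n) = n * absLogHeight x := by
  have h1 : ∀ i, (x ^ n) i ∈ genField x := fun i => pow_mem (mem_genField x i) n
  rw [absLogHeight_liftTo (genField x) (x ^ n) h1, absLogHeight_def]
  have h2 : liftTo (genField x) (x ^ n) h1 = lift x ^ n := by
    funext i
    ext
    rfl
  rw [h2, Height.logHeight_pow, mul_div_assoc]

/-- **Segre**: the absolute height of the multiplication table is the sum of the heights. -/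
theorem absLogHeight_fun_mul_eq {x : ι → Ω} (hx : x ≠ 0) {y : ι' → Ω} (hy : y ≠ 0) :
    absLogHeight (fun a : ι × ι' => x a.1 * y a.2) = absLogHeight x + absLogHeight y := by
  let z : ι ⊕ ι' → Ω := Sum.elim x y
  have hxE : ∀ i, x i ∈ genField z := fun i => mem_genField z (Sum.inl i)
  have hyE : ∀ i, y i ∈ genField z := fun i => mem_genField z (Sum.inr i)
  have h1 : ∀ a : ι × ι', (fun a : ι × ι' => x a.1 * y a.2) a ∈ genField z :=
    fun a => (genField z).mul_mem (hxE a.1) (hyE a.2)
  rw [absLogHeight_liftTo (genField z) _ h1, absLogHeight_liftTo (genField z) x hxE,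
    absLogHeight_liftTo (genField z) y hyE, ← add_div]
  congr 1
  have hx' : liftTo (genField z) x hxE ≠ 0 := by
    intro h
    apply hx
    funext i
    exact congrArg Subtype.val (congrFun h i)
  have hy' : liftTo (genField z) y hyE ≠ 0 := by
    intro h
    apply hy
    funext i
    exact congrArg Subtype.val (congrFun h i)
  rw [← Height.logHeight_fun_mul_eq hx' hy']
  congr 1

/-- Pointwise products. -/
theorem absLogHeight_mul_le (x y : ι → Ω) :
    absLogHeight (x * y) ≤ absLogHeight x + absLogHeight y := by
  let z : ι ⊕ ι → Ω := Sum.elim x y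
  have hxE : ∀ i, x i ∈ genField z := fun i => mem_genField z (Sum.inl i)
  have hyE : ∀ i, y i ∈ genField z := fun i => mem_genField z (Sum.inr i)
  have h1 : ∀ i, (x * y) i ∈ genField z := fun i => (genField z).mul_mem (hxE i) (hyE i)
  rw [absLogHeight_liftTo (genField z) _ h1, absLogHeight_liftTo (genField z) x hxE,
    absLogHeight_liftTo (genField z) y hyE, ← add_div]
  refine div_le_div_of_nonneg_right ?_ (finrank_pos_real _).le
  have h2 : liftTo (genField z) (x * y) h1 = liftTo (genField z) x hxE * liftTo (genField z) y hyE := by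
    funext i
    ext
    rfl
  rw [h2]
  exact Height.logHeight_mul_le _ _

end invariance

end Fermat.Agent.MW.AbsHeight12
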