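/-
Programme MW (S17), brick ABSH-1 (helper12), file 5: general extension lemmas for products of
local factors over the places of a number field, and the extension formula for the constant
`Height.mulHeightBound` of Mathlib's height bounds for polynomial maps.

For an extension `L / K` of number fields:
* `prod_infinitePlace_ext`, `finprod_heightOneSpectrum_ext`, `finprod_finitePlace_ext`;
* `mulHeightBound_map : mulHeightBound (fun j => map (algebraMap K L) (p j)) =
    mulHeightBound p ^ Module.finrank K L`.
-/
import Mathlib
import Fermat.Agent.MW.AbsHeight12.Ext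

set_option autoImplicit false

namespace Fermat.Agent.MW.AbsHeight12.ExtGen

open NumberField IsDedekindDomain IsDedekindDomain.HeightOneSpectrum
open Fermat.Agent.MW.AbsHeight12
open scoped NNReal

section general

variable {K L : Type*} [Field K] [NumberField K] [Field L] [NumberField L] [Algebra K L]

open scoped Classical in
/-- General extension lemma, archimedean part: local factors which only depend on the
restriction of the place to `K`. -/
theorem prod_infinitePlace_ext (fK : InfinitePlace K → ℝ) (fL : InfinitePlace L → ℝ)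
    (h : ∀ w, fL w = fK (w.comap (algebraMap K L))) :
    ∏ w : InfinitePlace L, fL w ^ w.mult =
      (∏ v : InfinitePlace K, fK v ^ v.mult) ^ Module.finrank K L := by
  rw [← Finset.prod_fiberwise (Finset.univ : Finset (InfinitePlace L))
    (fun w => w.comap (algebraMap K L)) (fun w => fL w ^ w.mult), ← Finset.prod_pow]
  refine Finset.prod_congr rfl fun v _ => ?_
  have h' : ∀ w ∈ Finset.univ.filter (fun w : InfinitePlace L => w.comap (algebraMap K L) = v),
      fL w ^ w.mult = fK v ^ w.mult := by
    intro w hw
    simp only [Finset.mem_filter, Finset.mem_univ, true_and] at hw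
    rw [h w, hw]
  rw [Finset.prod_congr rfl h', Finset.prod_pow_eq_pow_sum, InfSum.sum_mult_comap_eq, mul_comm,
    pow_mul]

/-- General extension lemma, non-archimedean part, indexed by maximal ideals: local factors
which are `localDeg`-th powers of the factor at the place below. -/
theorem finprod_heightOneSpectrum_ext (gK : HeightOneSpectrum (𝓞 K) → ℝ)
    (gL : HeightOneSpectrum (𝓞 L) → ℝ)
    (h : ∀ w, gL w = gK (FinSum.under (K := K) w) ^ FinSum.localDeg (K := K) w)
    (hfin : (Function.mulSupport gK).Finite) :
    ∏ᶠ w, gL w = (∏ᶠ v, gK v) ^ Module.finrank K L := by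
  classical
  set S : Finset (HeightOneSpectrum (𝓞 K)) := hfin.toFinset with hS
  have hsub : Function.mulSupport gL ⊆
      ((S.biUnion (FinSum.fibre L) : Finset (HeightOneSpectrum (𝓞 L))) : Set _) := by
    intro w hw
    rw [Finset.mem_coe, Finset.mem_biUnion]
    refine ⟨FinSum.under (K := K) w, ?_, FinSum.mem_fibre.2 rfl⟩
    rw [hS, Set.Finite.mem_toFinset, Function.mem_mulSupport]
    intro h1
    apply hw
    rw [h w, h1, one_pow]
  rw [finprod_eq_prod_of_mulSupport_subset _ hsub, Finset.prod_biUnion]
  · rw [finprod_eq_prod_of_mulSupport_subset gK (s := S) (by rw [hS]; simp), ← Finset.prod_pow]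
    refine Finset.prod_congr rfl fun v _ => ?_
    have h' : ∀ w ∈ FinSum.fibre L v, gL w = gK v ^ FinSum.localDeg (K := K) w := by
      intro w hw
      rw [h w, FinSum.mem_fibre.1 hw]
    rw [Finset.prod_congr rfl h', Finset.prod_pow_eq_pow_sum, FinSum.sum_localDeg]
  · intro v _ v' _ hvv'
    rw [Function.onFun, Finset.disjoint_left]
    intro w hw hw'
    exact hvv' ((FinSum.mem_fibre.1 hw).symm.trans (FinSum.mem_fibre.1 hw'))

/-- General extension lemma, non-archimedean part, indexed by finite places. -/
theorem finprod_finitePlace_ext (gK : FinitePlace K → ℝ) (gL : FinitePlace L → ℝ)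
    (h : ∀ w : HeightOneSpectrum (𝓞 L), gL (FinitePlace.mk w) =
      gK (FinitePlace.mk (FinSum.under (K := K) w)) ^ FinSum.localDeg (K := K) w)
    (hfin : (Function.mulSupport gK).Finite) :
    ∏ᶠ w, gL w = (∏ᶠ v, gK v) ^ Module.finrank K L := by
  rw [← finprod_comp_equiv (FinitePlace.equivHeightOneSpectrum (K := L)).symm,
    ← finprod_comp_equiv (FinitePlace.equivHeightOneSpectrum (K := K)).symm]
  refine finprod_heightOneSpectrum_ext (K := K) (L := L) _ _ h ?_
  exact Function.HasFiniteMulSupport.comp_of_injective
    (FinitePlace.equivHeightOneSpectrum (K := K)).symm.injective hfin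

end general

/-- Powers commute with finite (possibly empty) suprema of nonnegative reals. -/
theorem iSup_pow_of_nonneg' {ι : Type*} [Finite ι] (f : ι → ℝ) (hf : ∀ i, 0 ≤ f i)
    {n : ℕ} (hn : n ≠ 0) : (⨆ i, f i) ^ n = ⨆ i, f i ^ n := by
  rcases isEmpty_or_nonempty ι with h | h
  · rw [Real.iSup_of_isEmpty, Real.iSup_of_isEmpty, zero_pow hn]
  · exact Ext.iSup_pow_of_nonneg f hf n

theorem max_one_pow {a : ℝ} (ha : 0 ≤ a) (n : ℕ) : (max a 1) ^ n = max (a ^ n) 1 := by
  rcases le_total a 1 with h | h
  · rw [max_eq_right h, max_eq_right (pow_le_one₀ ha h), one_pow]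
  · rw [max_eq_left h, max_eq_left (one_le_pow₀ h)]

theorem iSup_finset_congr {σ : Type*} {A B : Finset σ} (h : A = B) (F : σ → ℝ) :
    (⨆ s : A, F s.val) = ⨆ s : B, F s.val := by
  subst h
  rfl

open MvPolynomial Height

section bound

variable {K : Type*} [Field K] [NumberField K]
variable {ι ι' : Type*}

theorem mulHeightBound_eq' (p : ι' → MvPolynomial ι K) :
    mulHeightBound p =
      (∏ v : InfinitePlace K, (⨆ j, ∑ s ∈ (p j).support, v (coeff s (p j))) ^ v.mult) *
        ∏ᶠ v : FinitePlace K, ⨆ j, max (⨆ s : (p j).support, v (coeff s.val (p j))) 1 := by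
  rw [mulHeightBound_eq, NumberField.prod_archAbsVal_eq,
    NumberField.prod_nonarchAbsVal_eq (fun v => ⨆ j, max (⨆ s : (p j).support, v (coeff s.val (p j))) 1)]
  rfl

theorem hasFiniteMulSupport_bound [Finite ι'] [Nonempty ι'] (p : ι' → MvPolynomial ι K) :
    (Function.mulSupport (fun v : FinitePlace K =>
      ⨆ j, max (⨆ s : (p j).support, v (coeff s.val (p j))) 1)).Finite := by
  refine Function.HasFiniteMulSupport.iSup fun j ↦ ?_
  rcases isEmpty_or_nonempty (p j).support with hs₀ | hs₀
  · simp [Function.hasFiniteMulSupport_one]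
  have H (s : (p j).support) : coeff s.val (p j) ≠ 0 := mem_support_iff.mp s.prop
  fun_prop (disch := simp [H])


end bound

section map

variable {K L : Type*} [Field K] [NumberField K] [Field L] [NumberField L] [Algebra K L]
variable {ι ι' : Type*} [Finite ι']

omit [NumberField K] [NumberField L] [Finite ι'] in
theorem arch_local_map (p : ι' → MvPolynomial ι K) (w : InfinitePlace L) :
    (⨆ j, ∑ s ∈ (map (algebraMap K L) (p j)).support, w (coeff s (map (algebraMap K L) (p j)))) =
      ⨆ j, ∑ s ∈ (p j).support, (w.comap (algebraMap K L)) (coeff s (p j)) := by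
  refine iSup_congr fun j => ?_
  rw [support_map_of_injective _ (algebraMap K L).injective]
  refine Finset.sum_congr rfl fun s _ => ?_
  rw [coeff_map]
  rfl

theorem nonarch_local_map (p : ι' → MvPolynomial ι K) (w : HeightOneSpectrum (𝓞 L)) :
    (⨆ j, max (⨆ s : (map (algebraMap K L) (p j)).support,
        FinitePlace.mk w (coeff s.val (map (algebraMap K L) (p j)))) 1) =
      (⨆ j, max (⨆ s : (p j).support,
        FinitePlace.mk (FinSum.under (K := K) w) (coeff s.val (p j))) 1) ^
          FinSum.localDeg (K := K) w := by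
  have hn : FinSum.localDeg (K := K) w ≠ 0 :=
    Nat.mul_ne_zero (FinSum.ramificationIdx_ne_zero w) (FinSum.inertiaDeg_ne_zero w)
  rw [iSup_pow_of_nonneg' _ (fun j => le_max_of_le_right zero_le_one) hn]
  refine iSup_congr fun j => ?_
  rw [max_one_pow (Real.iSup_nonneg fun s => apply_nonneg _ _),
    iSup_pow_of_nonneg' _ (fun s => apply_nonneg _ _) hn]
  congr 1
  rw [iSup_finset_congr (support_map_of_injective (p j) (algebraMap K L).injective)
    (fun s => FinitePlace.mk w (coeff s (map (algebraMap K L) (p j))))]
  refine iSup_congr fun s => ?_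
  rw [coeff_map, FinSum.mk_algebraMap]

/-- **Extension formula for the constant in the height bounds for polynomial maps.** -/
theorem mulHeightBound_map (p : ι' → MvPolynomial ι K) :
    mulHeightBound (fun j => map (algebraMap K L) (p j)) =
      mulHeightBound p ^ Module.finrank K L := by
  rw [mulHeightBound_eq', mulHeightBound_eq', mul_pow]
  have harch := prod_infinitePlace_ext (K := K) (L := L)
    (fun v => ⨆ j, ∑ s ∈ (p j).support, v (coeff s (p j)))
    (fun w => ⨆ j, ∑ s ∈ (map (algebraMap K L) (p j)).support,
      w (coeff s (map (algebraMap K L) (p j)))) (arch_local_map p)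
  rw [harch]
  rcases isEmpty_or_nonempty ι' with hι | hι
  · obtain ⟨v₀⟩ := (inferInstance : Nonempty (InfinitePlace K))
    have h0 : ∏ v : InfinitePlace K,
        (⨆ j, ∑ s ∈ (p j).support, v (coeff s (p j))) ^ v.mult = 0 := by
      refine Finset.prod_eq_zero (Finset.mem_univ v₀) ?_
      rw [Real.iSup_of_isEmpty, zero_pow v₀.mult_ne_zero]
    rw [h0, zero_pow Module.finrank_pos.ne', zero_mul, zero_mul]
  · congr 1
    exact finprod_finitePlace_ext (K := K) (L := L)
      (fun v => ⨆ j, max (⨆ s : (p j).support, v (coeff s.val (p j))) 1)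
      (fun w => ⨆ j, max (⨆ s : (map (algebraMap K L) (p j)).support,
        w (coeff s.val (map (algebraMap K L) (p j)))) 1)
      (nonarch_local_map p) (hasFiniteMulSupport_bound p)

end map

end Fermat.Agent.MW.AbsHeight12.ExtGen
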