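/-
Programme MW (S17), brick ABSH-1 (helper12), file 6: transfer of Mathlib's height bounds for
polynomial and linear maps to the absolute height.

`K₀` is a fixed number field, `Ω` a char-0 algebraic extension of `ℚ` with `[Algebra K₀ Ω]`,
`p : ι' → MvPolynomial ι K₀` polynomials over `K₀`, `x : ι → Ω` ANY tuple of `Ω`.

* `absLogBound p = log (max (mulHeightBound p) 1) / [K₀ : ℚ]`; `absLogBound_map` (invariant under
  extension of the number field); `absLogBound_nonneg`.
* `absLogHeight_aeval_le : absLogHeight (fun j => aeval x (p j)) ≤ absLogBound p + N * absLogHeight x`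
* `absLogHeight_aeval_ge : -(log #ι' + absLogBound q) + N * absLogHeight x ≤
    absLogHeight (fun j => aeval x (p j))` (from the Nullstellensatz-type relation with `q`).
* `absLogHeight_linearMap_apply_le`.
* tools: `genFieldOver K₀ x`, `liftOver K₀ x`, `absLogHeight_eq_liftOver`, `absLogHeight_coe_over`,
  `aeval_coe_eq`, `log_max_mulHeightBound_map`, `mulHeightBound_nonneg`.
-/
import Mathlib
import Fermat.Agent.MW.AbsHeight12.Abs
import Fermat.Agent.MW.AbsHeight12.ExtGen

set_option autoImplicit false

namespace Fermat.Agent.MW.AbsHeight12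

open NumberField MvPolynomial Height IntermediateField

section bound

variable {K : Type*} [Field K] [NumberField K] {ι ι' : Type*}

theorem mulHeightBound_nonneg (p : ι' → MvPolynomial ι K) : 0 ≤ mulHeightBound p := by
  rw [ExtGen.mulHeightBound_eq']
  refine mul_nonneg (Finset.prod_nonneg fun v _ => pow_nonneg
    (Real.iSup_nonneg fun j => Finset.sum_nonneg fun s _ => apply_nonneg _ _) _)
    (finprod_nonneg fun v => Real.iSup_nonneg fun j => le_max_of_le_right zero_le_one)

/-- The constant of the height bounds for polynomial maps, normalised to be invariant under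
extension of the number field: `log (max (mulHeightBound p) 1) / [K : ℚ]`. -/
noncomputable def absLogBound (p : ι' → MvPolynomial ι K) : ℝ :=
  Real.log (max (mulHeightBound p) 1) / Module.finrank ℚ K

theorem absLogBound_nonneg (p : ι' → MvPolynomial ι K) : 0 ≤ absLogBound p :=
  div_nonneg (Real.log_nonneg (le_max_right _ _)) (Nat.cast_nonneg _)

variable {L : Type*} [Field L] [NumberField L] [Algebra K L] [Finite ι']

theorem log_max_mulHeightBound_map (p : ι' → MvPolynomial ι K) :
    Real.log (max (mulHeightBound (fun j => map (algebraMap K L) (p j))) 1) =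
      Module.finrank K L * Real.log (max (mulHeightBound p) 1) := by
  rw [ExtGen.mulHeightBound_map, ← ExtGen.max_one_pow (mulHeightBound_nonneg p), Real.log_pow]

theorem absLogBound_map (p : ι' → MvPolynomial ι K) :
    absLogBound (fun j => map (algebraMap K L) (p j)) = absLogBound p := by
  rw [absLogBound, absLogBound, log_max_mulHeightBound_map,
    ← Module.finrank_mul_finrank ℚ K L, Nat.cast_mul]
  have h1 : (0 : ℝ) < Module.finrank ℚ K := by exact_mod_cast Module.finrank_pos
  have h2 : (0 : ℝ) < Module.finrank K L := by exact_mod_cast Module.finrank_pos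
  field_simp

end bound

section transfer

variable {Ω : Type*} [Field Ω] [CharZero Ω] [Algebra.IsAlgebraic ℚ Ω]
variable {K₀ : Type*} [Field K₀] [NumberField K₀] [Algebra K₀ Ω]
variable {ι ι' : Type*} [Finite ι] [Finite ι']

omit [Algebra.IsAlgebraic ℚ Ω] in
/-- A finite-dimensional intermediate field of `Ω / K₀` is a number field. -/
theorem numberField_of_finiteDimensional_over (E : IntermediateField K₀ Ω)
    [FiniteDimensional K₀ E] : NumberField E :=
  { to_charZero := inferInstance
    to_finiteDimensional := FiniteDimensional.trans ℚ K₀ E }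

/-- The number field generated over `K₀` by the entries of a finite tuple. -/
def genFieldOver (K₀ : Type*) [Field K₀] [Algebra K₀ Ω] (x : ι → Ω) : IntermediateField K₀ Ω :=
  adjoin K₀ (Set.range x)

instance genFieldOver_finiteDimensional (x : ι → Ω) :
    FiniteDimensional K₀ (genFieldOver K₀ x) :=
  haveI : Algebra.IsAlgebraic K₀ Ω := Algebra.IsAlgebraic.tower_top (K := ℚ) K₀
  finiteDimensional_adjoin fun a _ => Algebra.IsIntegral.isIntegral a

instance genFieldOver_numberField (x : ι → Ω) : NumberField (genFieldOver K₀ x) :=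
  numberField_of_finiteDimensional_over _

omit [CharZero Ω] [Algebra.IsAlgebraic ℚ Ω] [NumberField K₀] [Finite ι] in
theorem mem_genFieldOver (x : ι → Ω) (i : ι) : x i ∈ genFieldOver K₀ x :=
  subset_adjoin K₀ _ ⟨i, rfl⟩

/-- The tuple `x` as a tuple over the number field it generates over `K₀`. -/
def liftOver (K₀ : Type*) [Field K₀] [Algebra K₀ Ω] (x : ι → Ω) : ι → genFieldOver K₀ x :=
  fun i => ⟨x i, subset_adjoin K₀ _ ⟨i, rfl⟩⟩

theorem absLogHeight_eq_liftOver (x : ι → Ω) :
    absLogHeight x = logHeight (liftOver K₀ x) / Module.finrank ℚ (genFieldOver K₀ x) :=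
  absLogHeight_comp (algebraMap (genFieldOver K₀ x) Ω) (liftOver K₀ x)

/-- The absolute height of a tuple with entries in a number field `E` between `K₀` and `Ω`. -/
theorem absLogHeight_coe_over (E : IntermediateField K₀ Ω) [NumberField E] (y : ι → E) :
    absLogHeight (fun i => (y i : Ω)) = logHeight y / Module.finrank ℚ E :=
  absLogHeight_comp (algebraMap E Ω) y

theorem aeval_coe_eq (E : IntermediateField K₀ Ω) (y : ι → E) (q : MvPolynomial ι K₀) :
    aeval (fun i => (y i : Ω)) q = ((eval y (map (algebraMap K₀ E) q) : E) : Ω) := by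
  rw [eval_map, aeval_def]
  have h := eval₂_comp_left (algebraMap E Ω) (algebraMap K₀ E) y q
  rw [← IsScalarTower.algebraMap_eq] at h
  exact h.symm

/-- **Transfer of Mathlib's upper bound for polynomial maps** to the absolute height: the
constant `absLogBound p` depends only on the polynomials (over the fixed number field `K₀`). -/
theorem absLogHeight_aeval_le {N : ℕ} {p : ι' → MvPolynomial ι K₀}
    (hp : ∀ j, (p j).IsHomogeneous N) (x : ι → Ω) :
    absLogHeight (fun j => aeval x (p j)) ≤ absLogBound p + N * absLogHeight x := by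
  have h1 : (fun j => aeval x (p j)) = fun j =>
      ((eval (liftOver K₀ x) (map (algebraMap K₀ (genFieldOver K₀ x)) (p j)) :
        genFieldOver K₀ x) : Ω) :=
    funext fun j => aeval_coe_eq (genFieldOver K₀ x) (liftOver K₀ x) (p j)
  rw [h1, absLogHeight_coe_over (genFieldOver K₀ x), absLogHeight_eq_liftOver (K₀ := K₀) x,
    ← absLogBound_map (L := genFieldOver K₀ x) p, absLogBound, mul_div_assoc', ← add_div]
  exact div_le_div_of_nonneg_right
    (logHeight_eval_le (fun j => (hp j).map (algebraMap K₀ (genFieldOver K₀ x))) (liftOver K₀ x))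
    (Nat.cast_nonneg _)

/-- **Transfer of Mathlib's lower bound for polynomial maps** to the absolute height. -/
theorem absLogHeight_aeval_ge [Fintype ι'] {M N : ℕ} {q : ι × ι' → MvPolynomial ι K₀}
    (hq : ∀ a, (q a).IsHomogeneous M) (p : ι' → MvPolynomial ι K₀) {x : ι → Ω}
    (h : ∀ k, ∑ j, aeval x (q (k, j)) * aeval x (p j) = (x k) ^ (M + N)) :
    -(Real.log (Nat.card ι') + absLogBound q) + N * absLogHeight x ≤
      absLogHeight (fun j => aeval x (p j)) := by
  rcases isEmpty_or_nonempty ι' with hι' | hι'
  · have hx : x = 0 := by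
      funext k
      have := h k
      simp only [Finset.univ_eq_empty, Finset.sum_empty] at this
      exact eq_zero_of_pow_eq_zero this.symm
    rw [hx, absLogHeight_zero, mul_zero, add_zero, Nat.card_of_isEmpty, Nat.cast_zero,
      Real.log_zero, zero_add]
    exact (neg_nonpos.2 (absLogBound_nonneg q)).trans (absLogHeight_nonneg _)
  have e1 : ∀ r : MvPolynomial ι K₀, aeval x r =
      ((eval (liftOver K₀ x) (map (algebraMap K₀ (genFieldOver K₀ x)) r) :
        genFieldOver K₀ x) : Ω) :=
    fun r => aeval_coe_eq (genFieldOver K₀ x) (liftOver K₀ x) r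
  have hrel : ∀ k, ∑ j, (map (algebraMap K₀ (genFieldOver K₀ x)) (q (k, j))).eval (liftOver K₀ x) *
      (map (algebraMap K₀ (genFieldOver K₀ x)) (p j)).eval (liftOver K₀ x) =
        (liftOver K₀ x k) ^ (M + N) := by
    intro k
    apply Subtype.val_injective
    have := h k
    simp only [e1] at this
    push_cast
    exact this
  have h2 := logHeight_eval_ge (K := genFieldOver K₀ x)
    (q := fun a => map (algebraMap K₀ (genFieldOver K₀ x)) (q a))
    (fun a => (hq a).map (algebraMap K₀ (genFieldOver K₀ x)))
    (fun j => map (algebraMap K₀ (genFieldOver K₀ x)) (p j)) hrel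
  have hd : (0 : ℝ) < Module.finrank ℚ (genFieldOver K₀ x) := by
    exact_mod_cast Module.finrank_pos
  have hcard : (0 : ℝ) < Nat.card ι' := by exact_mod_cast Nat.card_pos
  rw [funext e1, absLogHeight_coe_over (genFieldOver K₀ x),
    absLogHeight_eq_liftOver (K₀ := K₀) x,
    ← absLogBound_map (L := genFieldOver K₀ x) q, absLogBound, le_div_iff₀ hd]
  rw [NumberField.totalWeight_eq_finrank, Real.log_mul (by positivity) (by positivity),
    Real.log_pow] at h2
  refine le_trans (le_of_eq ?_) h2
  field_simp

end transfer

section linear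

variable {Ω : Type*} [Field Ω] [CharZero Ω] [Algebra.IsAlgebraic ℚ Ω]
variable {ι ι' : Type*} [Fintype ι] [Finite ι']

/-- **Transfer of Mathlib's bound for linear maps** to the absolute height. -/
theorem absLogHeight_linearMap_apply_le (A : ι' × ι → Ω) (x : ι → Ω) :
    absLogHeight (fun j => ∑ i, A (j, i) * x i) ≤
      Real.log (Nat.card ι) + absLogHeight A + absLogHeight x := by
  let z : (ι' × ι) ⊕ ι → Ω := Sum.elim A x
  have hA : ∀ a, A a ∈ genField z := fun a => mem_genField z (Sum.inl a)
  have hx : ∀ i, x i ∈ genField z := fun i => mem_genField z (Sum.inr i)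
  have h1 : ∀ j, (fun j => ∑ i, A (j, i) * x i) j ∈ genField z :=
    fun j => sum_mem fun i _ => mul_mem (hA _) (hx _)
  have hd : (0 : ℝ) < Module.finrank ℚ (genField z) := finrank_pos_real _
  rw [absLogHeight_liftTo (genField z) _ h1, absLogHeight_liftTo (genField z) A hA,
    absLogHeight_liftTo (genField z) x hx, div_le_iff₀ hd, add_mul, add_mul,
    div_mul_cancel₀ _ hd.ne', div_mul_cancel₀ _ hd.ne']
  have h2 := logHeight_linearMap_apply_le (liftTo (genField z) A hA) (liftTo (genField z) x hx)
  rw [NumberField.totalWeight_eq_finrank] at h2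
  refine le_trans (le_of_eq ?_) (h2.trans (le_of_eq ?_))
  · congr 1
    funext j
    apply Subtype.val_injective
    push_cast
    rfl
  · ring

end linear

end Fermat.Agent.MW.AbsHeight12
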