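/-
Programme MW (S17), brick ABSH-T (helper12): bridge to the CANONICAL absolute height
`Fermat.Agent.MW.AbsHeightDef10.absLogHeight` (helper10) and restatement of all results of
`AbsHeight12` for it.  Consumers should use the statements of this file (namespace
`Fermat.Agent.MW.AbsHeight12.Canon`) together with the API of `AbsHeightDef10`.

* `absLogHeight_eq : AbsHeight12.absLogHeight x = AbsHeightDef10.absLogHeight x`
* `absLogHeight_pow`, `absLogHeight_fun_mul_eq` (Segre), `absLogHeight_mul_le`
* `absLogHeight_aeval_le`, `absLogHeight_aeval_ge`, `absLogHeight_linearMap_apply_le`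
  (transfer of Mathlib's bounds for polynomial / linear maps; the constant
  `AbsHeight12.absLogBound p = log (max (mulHeightBound p) 1) / [K₀ : ℚ]` only depends on the
  polynomials over the fixed number field `K₀`)
* `absLogHeight_eq_liftOver`, `absLogHeight_coe_over` (computation in number fields over `K₀`).
-/
import Mathlib
import Fermat.Agent.MW.AbsHeightDef10
import Fermat.Agent.MW.AbsHeight12.Transfer

set_option autoImplicit false

namespace Fermat.Agent.MW.AbsHeight12.Canon

open Fermat.Agent.MW
open MvPolynomial

variable {Ω : Type*} [Field Ω] [CharZero Ω] [Algebra.IsAlgebraic ℚ Ω]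
variable {ι ι' : Type*} [Finite ι] [Finite ι']

/-- **Bridge**: the absolute height of `AbsHeight12` is the canonical one of `AbsHeightDef10`. -/
theorem absLogHeight_eq (x : ι → Ω) :
    AbsHeight12.absLogHeight x = AbsHeightDef10.absLogHeight x := by
  rw [AbsHeight12.absLogHeight_def]
  rfl

/-- Coordinate-wise powers. -/
theorem absLogHeight_pow (x : ι → Ω) (n : ℕ) :
    AbsHeightDef10.absLogHeight (x ^ n) = n * AbsHeightDef10.absLogHeight x := by
  simpa only [absLogHeight_eq] using AbsHeight12.absLogHeight_pow x n

/-- **Segre**: the absolute height of the multiplication table is the sum of the heights. -/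
theorem absLogHeight_fun_mul_eq {x : ι → Ω} (hx : x ≠ 0) {y : ι' → Ω} (hy : y ≠ 0) :
    AbsHeightDef10.absLogHeight (fun a : ι × ι' => x a.1 * y a.2) =
      AbsHeightDef10.absLogHeight x + AbsHeightDef10.absLogHeight y := by
  simpa only [absLogHeight_eq] using AbsHeight12.absLogHeight_fun_mul_eq hx hy

/-- Pointwise products. -/
theorem absLogHeight_mul_le (x y : ι → Ω) :
    AbsHeightDef10.absLogHeight (x * y) ≤
      AbsHeightDef10.absLogHeight x + AbsHeightDef10.absLogHeight y := by
  simpa only [absLogHeight_eq] using AbsHeight12.absLogHeight_mul_le x y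

/-- Bound for linear maps. -/
theorem absLogHeight_linearMap_apply_le {ι : Type*} [Fintype ι] (A : ι' × ι → Ω) (x : ι → Ω) :
    AbsHeightDef10.absLogHeight (fun j => ∑ i, A (j, i) * x i) ≤
      Real.log (Nat.card ι) + AbsHeightDef10.absLogHeight A + AbsHeightDef10.absLogHeight x := by
  simpa only [absLogHeight_eq] using AbsHeight12.absLogHeight_linearMap_apply_le A x

section overK

variable {K₀ : Type*} [Field K₀] [NumberField K₀] [Algebra K₀ Ω]

/-- Upper bound for polynomial maps with coefficients in a fixed number field `K₀`. -/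
theorem absLogHeight_aeval_le {N : ℕ} {p : ι' → MvPolynomial ι K₀}
    (hp : ∀ j, (p j).IsHomogeneous N) (x : ι → Ω) :
    AbsHeightDef10.absLogHeight (fun j => aeval x (p j)) ≤
      AbsHeight12.absLogBound p + N * AbsHeightDef10.absLogHeight x := by
  simpa only [absLogHeight_eq] using AbsHeight12.absLogHeight_aeval_le hp x

/-- Lower bound for polynomial maps with coefficients in a fixed number field `K₀`. -/
theorem absLogHeight_aeval_ge [Fintype ι'] {M N : ℕ} {q : ι × ι' → MvPolynomial ι K₀}
    (hq : ∀ a, (q a).IsHomogeneous M) (p : ι' → MvPolynomial ι K₀) {x : ι → Ω}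
    (h : ∀ k, ∑ j, aeval x (q (k, j)) * aeval x (p j) = (x k) ^ (M + N)) :
    -(Real.log (Nat.card ι') + AbsHeight12.absLogBound q) + N * AbsHeightDef10.absLogHeight x ≤
      AbsHeightDef10.absLogHeight (fun j => aeval x (p j)) := by
  simpa only [absLogHeight_eq] using AbsHeight12.absLogHeight_aeval_ge hq p h

/-- Two-sided form: under the Nullstellensatz-type relation, `h(p(x)) = N h(x) + O(1)`. -/
theorem abs_absLogHeight_aeval_sub_le [Fintype ι'] {M N : ℕ} {q : ι × ι' → MvPolynomial ι K₀}
    (hq : ∀ a, (q a).IsHomogeneous M) {p : ι' → MvPolynomial ι K₀}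
    (hp : ∀ j, (p j).IsHomogeneous N) {x : ι → Ω}
    (h : ∀ k, ∑ j, aeval x (q (k, j)) * aeval x (p j) = (x k) ^ (M + N)) :
    |AbsHeightDef10.absLogHeight (fun j => aeval x (p j)) - N * AbsHeightDef10.absLogHeight x| ≤
      max (AbsHeight12.absLogBound p) (Real.log (Nat.card ι') + AbsHeight12.absLogBound q) := by
  have h1 := absLogHeight_aeval_le hp x
  have h2 := absLogHeight_aeval_ge hq p h
  rw [abs_le]
  constructor
  · have := le_max_right (AbsHeight12.absLogBound p)
      (Real.log (Nat.card ι') + AbsHeight12.absLogBound q)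
    linarith
  · have := le_max_left (AbsHeight12.absLogBound p)
      (Real.log (Nat.card ι') + AbsHeight12.absLogBound q)
    linarith

/-- The absolute height computed in the number field generated over `K₀`. -/
theorem absLogHeight_eq_liftOver (x : ι → Ω) :
    AbsHeightDef10.absLogHeight x = Height.logHeight (AbsHeight12.liftOver K₀ x) /
      Module.finrank ℚ (AbsHeight12.genFieldOver K₀ x) := by
  rw [← absLogHeight_eq]
  exact AbsHeight12.absLogHeight_eq_liftOver x

/-- The absolute height of a tuple with entries in a number field `E` between `K₀` and `Ω`. -/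
theorem absLogHeight_coe_over (E : IntermediateField K₀ Ω) [NumberField E] (y : ι → E) :
    AbsHeightDef10.absLogHeight (fun i => (y i : Ω)) =
      Height.logHeight y / Module.finrank ℚ E := by
  rw [← absLogHeight_eq]
  exact AbsHeight12.absLogHeight_coe_over E y

end overK

end Fermat.Agent.MW.AbsHeight12.Canon
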