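/-
Programme MW (S17), brick ABSH-1 (helper12), file 1: local degrees at the infinite places.

For an extension `L / K` of number fields and an infinite place `v` of `K`:
`∑_{w | v} mult w = [L : K] * mult v`.
-/
import Mathlib

set_option autoImplicit false

namespace Fermat.Agent.MW.AbsHeight12.InfSum

open NumberField NumberField.InfinitePlace

variable {K L : Type*} [Field K] [Field L] [Algebra K L]

/-- An infinite place `w` of `L` lies over `v` iff its restriction to `K` is `v`. -/
theorem liesOver_iff_comap_eq (w : InfinitePlace L) (v : InfinitePlace K) :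
    w.LiesOver v ↔ w.comap (algebraMap K L) = v := by
  constructor
  · intro h
    exact LiesOver.comap_eq w v
  · intro h
    refine ⟨?_⟩
    ext x
    rw [← h]
    rfl

variable [NumberField K] [NumberField L]

open scoped Classical in
/-- **Sum of the local degrees at the infinite places.** -/
theorem sum_mult_comap_eq (v : InfinitePlace K) :
    ∑ w ∈ Finset.univ.filter (fun w : InfinitePlace L => w.comap (algebraMap K L) = v), w.mult =
      Module.finrank K L * v.mult := by
  have hU : (unramifiedPlacesOver L v).ncard =
      (Finset.univ.filter (fun w : InfinitePlace L =>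
        w.comap (algebraMap K L) = v ∧ w.IsUnramified K)).card := by
    rw [← Set.ncard_coe_finset]
    congr 1
    ext w
    simp only [unramifiedPlacesOver, Finset.coe_filter, Finset.mem_univ, true_and,
      liesOver_iff_comap_eq]
  have hR : (ramifiedPlacesOver L v).ncard =
      (Finset.univ.filter (fun w : InfinitePlace L =>
        w.comap (algebraMap K L) = v ∧ w.IsRamified K)).card := by
    rw [← Set.ncard_coe_finset]
    congr 1
    ext w
    simp only [ramifiedPlacesOver, Finset.coe_filter, Finset.mem_univ, true_and,
      liesOver_iff_comap_eq]
  have hn := unramifedPlacesOver_ncard_add_eq_finrank L v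
  rw [hU, hR] at hn
  -- split the sum
  rw [← Finset.sum_filter_add_sum_filter_not _ (fun w : InfinitePlace L => w.IsUnramified K),
    Finset.filter_filter, Finset.filter_filter]
  have h1 : ∑ w ∈ Finset.univ.filter (fun w : InfinitePlace L =>
      w.comap (algebraMap K L) = v ∧ w.IsUnramified K), w.mult =
      (Finset.univ.filter (fun w : InfinitePlace L =>
        w.comap (algebraMap K L) = v ∧ w.IsUnramified K)).card * v.mult := by
    rw [Finset.card_eq_sum_ones, Finset.sum_mul]
    refine Finset.sum_congr rfl fun w hw => ?_
    simp only [Finset.mem_filter, Finset.mem_univ, true_and] at hw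
    rw [one_mul, ← hw.1]
    exact hw.2.eq.symm
  have h2 : ∑ w ∈ Finset.univ.filter (fun w : InfinitePlace L =>
      w.comap (algebraMap K L) = v ∧ ¬ w.IsUnramified K), w.mult =
      2 * (Finset.univ.filter (fun w : InfinitePlace L =>
        w.comap (algebraMap K L) = v ∧ w.IsRamified K)).card := by
    rw [Finset.card_eq_sum_ones, Finset.mul_sum]
    refine Finset.sum_congr rfl fun w hw => ?_
    simp only [Finset.mem_filter, Finset.mem_univ, true_and] at hw
    rw [mul_one]
    have hc : w.IsComplex := (isRamified_iff.1 hw.2).1
    rw [mult, if_neg (not_isReal_iff_isComplex.2 hc)]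
  rw [h1, h2]
  by_cases hv : v.IsReal
  · have : v.mult = 1 := by rw [mult, if_pos hv]
    rw [this, mul_one, mul_one]
    exact hn
  · have hv2 : v.mult = 2 := by rw [mult, if_neg hv]
    have hempty : (Finset.univ.filter (fun w : InfinitePlace L =>
        w.comap (algebraMap K L) = v ∧ w.IsRamified K)).card = 0 := by
      rw [Finset.card_eq_zero, Finset.filter_eq_empty_iff]
      intro w _ hw
      apply hv
      rw [← hw.1]
      exact (isRamified_iff.1 hw.2).2
    rw [hempty, mul_zero, add_zero] at hn ⊢
    rw [hn]

end Fermat.Agent.MW.AbsHeight12.InfSum
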